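import Fermat.Agent.GRHProgressions.Classes

/-!
# A character takes a value other than `1` at a prime `≪ log² q` on GRH

`ψ₁ (x, χ) = O (x ^ (3/2) log q)` by the explicit formula, but it is `≫ x²` if `χ p = 1` at all
the primes up to `x` prime to `q`, by Chebyshev.
-/

set_option autoImplicit false

noncomputable section

namespace FA.AnkenyBound

open Complex MeasureTheory Finset
open FA.GRHProgressions
open FA.DirichletHadamard (GRHFor)
open FA.DirichletLandau (lMult)
open FA.DirichletZeroCount (qLog)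
open FA.Gallagher (psiOneChar twist zeroPow primOf primOf_apply primOf_eq_one_iff)
open scoped Real ArithmeticFunction.vonMangoldt

variable {q : ℕ} [NeZero q]

/-- `ψ₁ (x, χ) = O (x ^ (3/2) log q)` for primitive characters. -/
theorem exists_psiOne_primitive : ∃ C, 0 ≤ C ∧ ∀ (q : ℕ) [NeZero q]
    (χ : DirichletCharacter ℂ q), χ.IsPrimitive → χ ≠ 1 → GRHFor χ → ∀ x : ℝ, 1 ≤ x →
      ‖psiOneChar χ x‖ ≤ C * x * √x * (Real.log (2 * q)) := by
  obtain ⟨K, hK, hneg⟩ := exists_negL_quarter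
  obtain ⟨T, hT, htail⟩ := exists_tail_sum
  obtain ⟨J, hJ⟩ : ∃ J, J = ∫ t : ℝ, (1 + |t|) ^ (-(15 / 8) : ℝ) := ⟨_, rfl⟩
  have hJ0 : 0 ≤ J := hJ ▸ integral_nonneg fun t => by positivity
  refine ⟨25 * K * J * 16 + 25 * T * 3, by positivity, fun q _ χ hp hχ hG x hx => ?_⟩
  have hx0 : 0 < x := by linarith
  have hq : (1 : ℝ) ≤ q := Nat.one_le_cast.2 NeZero.one_le
  obtain ⟨L, hL⟩ : ∃ L, L = Real.log (2 * q) := ⟨_, rfl⟩
  rw [← hL]
  have hL2 : 0.69 ≤ L := by
    rw [hL]
    linarith [Real.log_le_log two_pos (show (2 : ℝ) ≤ 2 * q by linarith), Real.log_two_gt_d9]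
  have hlq : Real.log q ≤ L := hL ▸ Real.log_le_log (by linarith) (by linarith)
  have h32 : x ^ (3 / 2 : ℝ) = x * √x := by
    rw [show (3 / 2 : ℝ) = 1 + 1 / 2 by norm_num, Real.rpow_add hx0, Real.rpow_one,
      Real.sqrt_eq_rpow]
  have h54 : x ^ (5 / 4 : ℝ) ≤ x * √x := h32 ▸
    Real.rpow_le_rpow_of_exponent_le hx (by norm_num)
  rw [psiOneChar_eq_sum hp hχ hG hx]
  refine (norm_sub_le _ _).trans ?_
  rw [add_mul (25 * K * J * 16), add_mul, add_mul]
  refine add_le_add ?_ ?_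
  · rw [norm_mul]
    refine (mul_le_of_le_one_left (norm_nonneg _) ?_).trans ?_
    · rw [norm_div, norm_one, norm_mul, Complex.norm_two, Complex.norm_real,
        Real.norm_of_nonneg Real.pi_pos.le, div_le_one (by positivity)]
      linarith [Real.pi_gt_three]
    refine (norm_integral_le_of_norm_le ((integrable_bracket
      (show (1 : ℝ) < 15 / 8 by norm_num)).const_mul
        (25 * x ^ (5 / 4 : ℝ) * (K * (Real.log q + 10)))) (Filter.Eventually.of_forall
          fun t => ?_)).trans ?_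
    · have ht : 0 < 1 + |t| := by positivity
      rw [intF, norm_mul]
      refine (mul_le_mul ((norm_zeroPow_le (by simp) hx0).trans (le_of_eq ?_))
        (hneg q χ hp hχ hG t) (norm_nonneg _) (by positivity : 0 ≤ 25 * x ^ (5 / 4 : ℝ) /
          (1 + |t|) ^ 2)).trans (le_of_eq ?_)
      · simp
        norm_num
      · rw [show (-(15 / 8) : ℝ) = 1 / 8 - (2 : ℕ) by norm_num, Real.rpow_sub ht,
          Real.rpow_natCast]
        ring
    · rw [integral_const_mul, ← hJ]
      calc 25 * x ^ (5 / 4 : ℝ) * (K * (Real.log q + 10)) * J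
          ≤ 25 * (x * √x) * (K * (16 * L)) * J := by gcongr; linarith
        _ = _ := by ring
  · have hs := summable_zeroPow hp hχ hG hx0
    refine (norm_tsum_le_tsum_norm hs).trans
      (Real.tsum_le_of_sum_le (fun ρ => norm_nonneg _) fun S => ?_)
    refine (Finset.sum_le_sum (g := fun ρ : ℂ =>
      25 * (x * √x) * ((lMult χ ρ : ℝ) / (1 + |ρ.im|) ^ 2)) fun ρ _ => ?_).trans ?_
    · by_cases hm : lMult χ ρ = 0
      · simp [hm]
      have hre := GRHProgressions.re_eq_half hp hχ hG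
        (DirichletHadamard.mem_strip_of_mult hp hχ hm).1
      rw [norm_mul, Complex.norm_natCast]
      refine (mul_le_mul_of_nonneg_left (norm_zeroPow_le (by rw [hre]; norm_num) hx0)
        (Nat.cast_nonneg _)).trans (le_of_eq ?_)
      rw [hre, show (1 / 2 + 1 : ℝ) = 3 / 2 by norm_num, h32]
      ring
    · rw [← Finset.mul_sum]
      have h0 : qLog q (0 : ℕ) ≤ 3 * L := by
        rw [qLog, Nat.cast_zero, abs_zero, zero_add, hL,
          show (3 : ℝ) * Real.log (2 * q) = Real.log ((2 * q) ^ 3) by rw [Real.log_pow]; norm_num]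
        refine Real.log_le_log (by positivity) ?_
        nlinarith [pow_le_pow_left₀ (by norm_num : (0 : ℝ) ≤ 2)
          (show (2 : ℝ) ≤ 2 * q by linarith) 2]
      have h1 := htail q χ hp hχ 0 S fun ρ _ => by simp
      rw [Nat.cast_zero, zero_add, div_one] at h1
      calc 25 * (x * √x) * ∑ ρ ∈ S, (lMult χ ρ : ℝ) / (1 + |ρ.im|) ^ 2
          ≤ 25 * (x * √x) * (T * (3 * L)) := mul_le_mul_of_nonneg_left
            (h1.trans (mul_le_mul_of_nonneg_left (by simpa using h0) hT)) (by positivity)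
        _ = _ := by ring

/-- Passing to the primitive character, for `ψ₁`. -/
theorem norm_psiOne_sub_primOf (χ : DirichletCharacter ℂ q) {x : ℝ} (hx : 0 ≤ x) :
    ‖psiOneChar χ x - psiOneChar (primOf χ).2 x‖ ≤
      x * ∑ n ∈ (Icc 1 ⌊x⌋₊).filter (fun n => ¬n.Coprime q), Λ n := by
  rw [psiOneChar, psiOneChar, ← sum_sub_distrib, mul_sum, sum_filter]
  refine (norm_sum_le _ _).trans (sum_le_sum fun n hn => ?_)
  have hnx : (n : ℝ) ≤ x := (Nat.cast_le.2 (mem_Icc.1 hn).2).trans (Nat.floor_le hx)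
  rw [twist, twist, ← sub_mul, ← sub_mul, norm_mul, norm_mul, Complex.norm_real, Complex.norm_real,
    Real.norm_of_nonneg ArithmeticFunction.vonMangoldt_nonneg,
    Real.norm_of_nonneg (sub_nonneg.2 hnx)]
  by_cases h : n.Coprime q
  · rw [if_neg (not_not.2 h), primOf_apply χ h, sub_self, norm_zero, zero_mul, zero_mul]
  · rw [if_pos h, MulChar.map_nonunit χ fun h' => h ((ZMod.isUnit_iff_coprime n q).1 h'),
      zero_sub, norm_neg, mul_comm x]
    refine mul_le_mul (mul_le_of_le_one_left ArithmeticFunction.vonMangoldt_nonneg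
      ((primOf χ).2.norm_le_one _)) (by linarith [(Nat.cast_nonneg n : (0 : ℝ) ≤ n)])
      (sub_nonneg.2 hnx) ArithmeticFunction.vonMangoldt_nonneg

/-- `ψ₁ (x, χ)` if `χ` is `1` at the primes up to `x`. -/
theorem psiOne_ge_of_trivial (χ : DirichletCharacter ℂ q) {x : ℝ} (hx : 40 ≤ x)
    (h : ∀ p : ℕ, p.Prime → ¬p ∣ q → (p : ℝ) ≤ x → χ p = 1) :
    x / 2 * (x / 8 - 4 * Real.log (2 * q) * √x) ≤ ‖psiOneChar χ x‖ := by
  obtain ⟨S, hS⟩ : ∃ S, S = ∑ n ∈ (Icc 1 ⌊x⌋₊).filter (fun n => n.Coprime q),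
      Λ n * (x - n) := ⟨_, rfl⟩
  have e : psiOneChar χ x = (S : ℂ) := by
    rw [psiOneChar, hS, sum_filter, Complex.ofReal_sum]
    refine sum_congr rfl fun n hn => ?_
    rw [twist]
    by_cases hc : n.Coprime q
    · rw [if_pos hc]
      by_cases hpp : IsPrimePow n
      · obtain ⟨p, k, hp, hk, rfl⟩ := (isPrimePow_nat_iff n).1 hpp
        have hpq : ¬ p ∣ q := fun hd => by
          rw [Nat.coprime_pow_left_iff hk, hp.coprime_iff_not_dvd] at hc
          exact hc hd
        have hle : (p : ℝ) ≤ x := by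
          refine (Nat.cast_le.2 ((Nat.le_self_pow hk.ne' p).trans (mem_Icc.1 hn).2)).trans
            (Nat.floor_le (by linarith))
        rw [Nat.cast_pow, map_pow, h p hp hpq hle, one_pow]
        push_cast
        ring
      · rw [ArithmeticFunction.vonMangoldt_eq_zero_iff.2 hpp]
        simp
    · rw [if_neg hc, MulChar.map_nonunit χ fun h' => hc ((ZMod.isUnit_iff_coprime n q).1 h')]
      simp
  rw [e, Complex.norm_real]
  refine le_trans ?_ (le_abs_self _)
  have hq : (1 : ℝ) ≤ q := Nat.one_le_cast.2 NeZero.one_le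
  have hsub : (Icc 1 ⌊x / 2⌋₊).filter (fun n => n.Coprime q) ⊆
      (Icc 1 ⌊x⌋₊).filter (fun n => n.Coprime q) :=
    filter_subset_filter _ (Icc_subset_Icc_right (Nat.floor_mono (by linarith)))
  have hhalf : x / 2 * ∑ n ∈ (Icc 1 ⌊x / 2⌋₊).filter (fun n => n.Coprime q), Λ n ≤ S := by
    rw [hS, mul_sum]
    refine le_trans (sum_le_sum fun n hn => ?_) (sum_le_sum_of_subset_of_nonneg hsub
      fun n hn _ => mul_nonneg ArithmeticFunction.vonMangoldt_nonneg ?_)
    · have : (n : ℝ) ≤ x / 2 := (Nat.cast_le.2 (mem_Icc.1 (mem_filter.1 hn).1).2).trans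
        (Nat.floor_le (by linarith))
      rw [mul_comm (x / 2)]
      exact mul_le_mul_of_nonneg_left (by linarith) ArithmeticFunction.vonMangoldt_nonneg
    · exact sub_nonneg.2 ((Nat.cast_le.2 (mem_Icc.1 (mem_filter.1 hn).1).2).trans
        (Nat.floor_le (by linarith)))
  refine le_trans (mul_le_mul_of_nonneg_left ?_ (by linarith)) hhalf
  have hsplit := sum_filter_add_sum_filter_not (Icc 1 ⌊x / 2⌋₊) (fun n => n.Coprime q)
    (fun n => Λ n)
  have hpsi : ∑ n ∈ Icc 1 ⌊x / 2⌋₊, Λ n = Chebyshev.psi (x / 2) := by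
    rw [Chebyshev.psi, show Ioc 0 ⌊x / 2⌋₊ = Icc 1 ⌊x / 2⌋₊ from by ext n; simp; omega]
  have hN : 1 ≤ ⌊x / 2⌋₊ := Nat.le_floor (by push_cast; linarith)
  have hbad := sum_not_coprime q hN
  have hlow := Chebyshev.psi_ge' (show (0 : ℝ) ≤ x / 2 by linarith)
  have hl : Real.log (x / 2 + 2) ≤ x / 10 := by
    have h1 := Real.log_le_sub_one_of_pos (show 0 < (x / 2 + 2) / 22 by positivity)
    rw [Real.log_div (by positivity) (by norm_num)] at h1
    have h22 : Real.log (22 : ℝ) ≤ 3.2 := by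
      rw [Real.log_le_iff_le_exp (by norm_num)]
      have := Real.exp_one_gt_d9
      have e3 : Real.exp (3.2 : ℝ) = Real.exp 1 ^ 3 * Real.exp 0.2 := by
        rw [← Real.exp_nat_mul, ← Real.exp_add]
        norm_num
      have e02 : (1.2 : ℝ) ≤ Real.exp 0.2 := by linarith [Real.add_one_le_exp (0.2 : ℝ)]
      rw [e3]
      nlinarith [pow_le_pow_left₀ (by norm_num) this.le 3, Real.exp_pos (0.2 : ℝ)]
    linarith
  have hcard := card_primeFactors_le q
  have hlx : Real.log (⌊x / 2⌋₊ : ℝ) ≤ 2 * √x := by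
    refine (Real.log_le_log (Nat.cast_pos.2 hN) ((Nat.floor_le (by linarith)).trans
      (show x / 2 ≤ x by linarith))).trans ?_
    have h1 := Real.log_le_sub_one_of_pos (Real.sqrt_pos.2 (show 0 < x by linarith))
    rw [Real.log_sqrt (by linarith)] at h1
    linarith
  have hlq : Real.log q ≤ Real.log (2 * q) := Real.log_le_log (by linarith) (by linarith)
  have hmul : (q.primeFactors.card : ℝ) * Real.log (⌊x / 2⌋₊ : ℝ) ≤
      4 * Real.log (2 * q) * √x := by
    calc (q.primeFactors.card : ℝ) * Real.log (⌊x / 2⌋₊ : ℝ)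
        ≤ 2 * Real.log (2 * q) * (2 * √x) :=
          mul_le_mul (hcard.trans (by linarith)) hlx (Real.log_natCast_nonneg _)
            (mul_nonneg zero_le_two (Real.log_nonneg (by linarith)))
      _ = _ := by ring
  have hlog2 := Real.log_two_gt_d9
  nlinarith

/-- **Ankeny, Montgomery, Bach: `χ p ≠ 1` for some prime `p ≪ log² q`, on GRH for `χ` alone.** -/
theorem exists_prime_ne_one : ∃ C, 0 < C ∧ ∀ (q : ℕ) [NeZero q]
    (χ : DirichletCharacter ℂ q), χ ≠ 1 → GRHFor χ →
      ∃ p : ℕ, p.Prime ∧ ¬p ∣ q ∧ χ p ≠ 1 ∧ (p : ℝ) ≤ C * Real.log (2 * q) ^ 2 := by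
  obtain ⟨C, hC, h⟩ := exists_psiOne_primitive
  obtain ⟨r, hr⟩ : ∃ r, r = 16 * C + 97 := ⟨_, rfl⟩
  refine ⟨r ^ 2, by rw [hr]; positivity, fun q _ χ hχ hG => ?_⟩
  obtain ⟨L, hL⟩ : ∃ L, L = Real.log (2 * q) := ⟨_, rfl⟩
  obtain ⟨x, hx⟩ : ∃ x, x = r ^ 2 * L ^ 2 := ⟨_, rfl⟩
  rw [← hL, ← hx]
  have hq : (1 : ℝ) ≤ q := Nat.one_le_cast.2 NeZero.one_le
  have hL2 : 0.69 ≤ L := by
    rw [hL]
    linarith [Real.log_le_log two_pos (show (2 : ℝ) ≤ 2 * q by linarith), Real.log_two_gt_d9]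
  have hr0 : 97 ≤ r := by rw [hr]; linarith
  have hsx : √x = r * L := by
    rw [hx, ← mul_pow, Real.sqrt_sq (by positivity)]
  have hx40 : 40 ≤ x := by
    calc (40 : ℝ) ≤ 97 ^ 2 * 0.69 ^ 2 := by norm_num
      _ ≤ _ := by rw [hx]; gcongr
  by_contra hno
  push Not at hno
  have hlow := psiOne_ge_of_trivial χ hx40 fun p hp hpq hle =>
    not_not.1 fun hne => (hno p hp hpq hne).not_ge hle
  have : NeZero (primOf χ).1 := ⟨χ.conductor_ne_zero⟩
  have h1 := h (primOf χ).1 (primOf χ).2 χ.primitiveCharacter_isPrimitive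
    (fun e => hχ ((primOf_eq_one_iff χ).1 e)) (grhFor_primOf hχ hG) x (by linarith)
  have hle : Real.log (2 * (primOf χ).1) ≤ L := by
    rw [hL]
    refine Real.log_le_log (mul_pos two_pos (Nat.cast_pos.2 (NeZero.pos _))) ?_
    exact mul_le_mul_of_nonneg_left (Nat.cast_le.2
      (Nat.le_of_dvd (NeZero.pos q) χ.conductor_dvd_level)) zero_le_two
  have h2 := norm_psiOne_sub_primOf χ (show 0 ≤ x by linarith)
  have hN : 1 ≤ ⌊x⌋₊ := Nat.le_floor (by push_cast; linarith)
  have h3 : ∑ n ∈ (Icc 1 ⌊x⌋₊).filter (fun n => ¬n.Coprime q), Λ n ≤ 4 * L * √x := by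
    refine (sum_not_coprime q hN).trans ?_
    have hl : Real.log (⌊x⌋₊ : ℝ) ≤ 2 * √x := by
      refine (Real.log_le_log (Nat.cast_pos.2 hN) (Nat.floor_le (by linarith))).trans ?_
      have h1 := Real.log_le_sub_one_of_pos (Real.sqrt_pos.2 (show 0 < x by linarith))
      rw [Real.log_sqrt (by linarith)] at h1
      linarith
    calc (q.primeFactors.card : ℝ) * Real.log (⌊x⌋₊ : ℝ) ≤ 2 * L * (2 * √x) :=
          mul_le_mul ((card_primeFactors_le q).trans (by
            rw [hL]; linarith [Real.log_le_log (show (0 : ℝ) < q by linarith)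
              (show (q : ℝ) ≤ 2 * q by linarith)])) hl (Real.log_natCast_nonneg _) (by linarith)
      _ = _ := by ring
  have hup : ‖psiOneChar χ x‖ ≤ x * √x * L * (C + 4) := by
    calc ‖psiOneChar χ x‖ ≤ ‖psiOneChar (primOf χ).2 x‖ +
          ‖psiOneChar χ x - psiOneChar (primOf χ).2 x‖ := by
          simpa [add_comm] using norm_add_le (psiOneChar χ x - psiOneChar (primOf χ).2 x)
            (psiOneChar (primOf χ).2 x)
      _ ≤ C * x * √x * L + x * (4 * L * √x) := add_le_add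
          (h1.trans (mul_le_mul_of_nonneg_left hle (by positivity)))
          (h2.trans (mul_le_mul_of_nonneg_left h3 (by linarith)))
      _ = _ := by ring
  have key : x * (x / 8 - 4 * L * √x) ≤ x * (2 * √x * L * (C + 4)) := by
    rw [← hL] at hlow
    linarith
  have key2 := le_of_mul_le_mul_left key (by linarith)
  rw [hsx, hx] at key2
  have key3 : r * r * (L * L) ≤ (16 * C + 96) * r * (L * L) := by linarith
  have key4 := le_of_mul_le_mul_right key3 (by positivity)
  have key5 := le_of_mul_le_mul_right key4 (by linarith)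
  linarith

end FA.AnkenyBound

end
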