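import Fermat.Agent.AnkenyBound.Core
import Fermat.Agent.Miller.Test
import Mathlib.GroupTheory.FiniteAbelian.Duality
import Mathlib.NumberTheory.LegendreSymbol.QuadraticChar.Basic
import Mathlib.RingTheory.RootsOfUnity.AlgebraicallyClosed
import Mathlib.Analysis.Complex.Polynomial.Basic

/-!
# The least prime outside a subgroup, nonresidues and Miller's test

Every proper subgroup of `(ZMod n)ˣ` is killed by some nontrivial character.
-/

set_option autoImplicit false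

noncomputable section

namespace FA.AnkenyBound

open FA.DirichletHadamard (GRHFor)
open FA.GRHProgressions (GRHMod)

/-- **A prime outside a subgroup**, the hypothesis only for the characters trivial on it. -/
theorem exists_prime_outside : ∃ C, 0 < C ∧ ∀ (n : ℕ) [NeZero n] (H : Subgroup (ZMod n)ˣ),
    H ≠ ⊤ → (∀ χ : DirichletCharacter ℂ n, χ ≠ 1 → (∀ u ∈ H, χ (u : ZMod n) = 1) → GRHFor χ) →
      ∃ p : ℕ, p.Prime ∧ ¬p ∣ n ∧ (∀ u : (ZMod n)ˣ, (u : ZMod n) = p → u ∉ H) ∧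
        (p : ℝ) ≤ C * Real.log (2 * n) ^ 2 := by
  obtain ⟨C, hC, h⟩ := exists_prime_ne_one
  refine ⟨C, hC, fun n _ H hH hG => ?_⟩
  obtain ⟨g, hg⟩ : ∃ g : (ZMod n)ˣ, g ∉ H := by
    by_contra! hall
    exact hH (Subgroup.eq_top_iff' H |>.2 hall)
  have : NeZero (Monoid.exponent ((ZMod n)ˣ ⧸ H) : ℂ) :=
    ⟨Nat.cast_ne_zero.2 (Monoid.exponent_ne_zero_of_finite (G := (ZMod n)ˣ ⧸ H))⟩
  obtain ⟨φ, hφ⟩ := CommGroup.exists_apply_ne_one_of_hasEnoughRootsOfUnity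
    ((ZMod n)ˣ ⧸ H) ℂ (a := QuotientGroup.mk g) (by rwa [Ne, QuotientGroup.eq_one_iff])
  obtain ⟨χ, hχdef⟩ : ∃ χ : DirichletCharacter ℂ n,
      χ = MulChar.ofUnitHom (φ.comp (QuotientGroup.mk' H)) := ⟨_, rfl⟩
  have hval : ∀ u : (ZMod n)ˣ, χ (u : ZMod n) = (φ (QuotientGroup.mk u) : ℂˣ) := fun u => by
    rw [hχdef]
    simp
  have hχ : χ ≠ 1 := fun e => hφ (Units.ext (by
    rw [← hval g, e, MulChar.one_apply_coe, Units.val_one]))
  have htriv : ∀ u ∈ H, χ (u : ZMod n) = 1 := fun u hu => by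
    rw [hval u, (QuotientGroup.eq_one_iff u).2 hu, map_one, Units.val_one]
  obtain ⟨p, hp, hpn, hne, hle⟩ := h n χ hχ (hG χ hχ htriv)
  exact ⟨p, hp, hpn, fun u hu hmem => hne (by rw [← hu]; exact htriv u hmem), hle⟩

/-- **The small primes generate.** -/
theorem exists_generators : ∃ C, 0 < C ∧ ∀ (n : ℕ) [NeZero n], GRHMod n →
    Subgroup.closure {u : (ZMod n)ˣ | ∃ p : ℕ, p.Prime ∧ (u : ZMod n) = p ∧
      (p : ℝ) ≤ C * Real.log (2 * n) ^ 2} = ⊤ := by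
  obtain ⟨C, hC, h⟩ := exists_prime_outside
  refine ⟨C, hC, fun n _ hG => by_contra fun hne => ?_⟩
  obtain ⟨p, hp, hpn, hu, hle⟩ := h n _ hne fun χ _ _ => hG χ
  refine hu (ZMod.unitOfCoprime p (hp.coprime_iff_not_dvd.2 hpn)) rfl (Subgroup.subset_closure ?_)
  exact ⟨p, hp, rfl, hle⟩

/-- **The least `k`-th power nonresidue.** -/
theorem exists_power_nonresidue : ∃ C, 0 < C ∧ ∀ p k : ℕ, p.Prime → 1 < Nat.gcd k (p - 1) →
    (∀ [NeZero p] (χ : DirichletCharacter ℂ p), χ ≠ 1 → χ ^ k = 1 → GRHFor χ) →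
      ∃ l : ℕ, l.Prime ∧ l ≠ p ∧ (∀ u : ZMod p, u ^ k ≠ l) ∧
        (l : ℝ) ≤ C * Real.log (2 * p) ^ 2 := by
  obtain ⟨C, hC, h⟩ := exists_prime_outside
  refine ⟨C, hC, fun p k hp hk hG => ?_⟩
  have : NeZero p := ⟨hp.ne_zero⟩
  have : Fact p.Prime := ⟨hp⟩
  have hne : (powMonoidHom k : (ZMod p)ˣ →* (ZMod p)ˣ).range ≠ ⊤ := fun htop => by
    have hsurj : Function.Surjective (powMonoidHom k : (ZMod p)ˣ →* (ZMod p)ˣ) :=
      MonoidHom.range_eq_top.1 htop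
    have hinj := Finite.injective_iff_surjective.2 hsurj
    obtain ⟨g, hgen⟩ := IsCyclic.exists_generator (α := (ZMod p)ˣ)
    have hord : orderOf g = p - 1 := by
      rw [orderOf_eq_card_of_forall_mem_zpowers hgen, Nat.card_eq_fintype_card,
        ZMod.card_units p]
    obtain ⟨j, hj⟩ := Nat.gcd_dvd_right k (p - 1)
    obtain ⟨i, hi⟩ := Nat.gcd_dvd_left k (p - 1)
    have h1 : (g ^ j) ^ k = 1 := by
      rw [← pow_mul, ← orderOf_dvd_iff_pow_eq_one, hord, hj]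
      exact ⟨i, by nth_rewrite 1 [hi]; ring⟩
    have h2 : g ^ j = 1 := hinj (by simpa [powMonoidHom_apply] using h1)
    have hj0 : 0 < j := Nat.pos_of_ne_zero fun e => by
      rw [e, mul_zero] at hj
      have := hp.two_le
      omega
    have h3 := Nat.le_of_dvd hj0 (hord ▸ orderOf_dvd_of_pow_eq_one h2)
    rw [hj] at h3
    have := Nat.mul_le_mul_right j hk
    omega
  obtain ⟨l, hl, hln, hlu, hle⟩ := h p _ hne fun χ hχ htriv => hG χ hχ (MulChar.ext fun u => by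
    rw [MulChar.pow_apply_coe, ← map_pow, ← Units.val_pow_eq_pow_val, MulChar.one_apply_coe]
    exact htriv _ ⟨u, rfl⟩)
  refine ⟨l, hl, fun e => hln (e ▸ dvd_rfl), fun u hu => ?_, hle⟩
  have hk0 : k ≠ 0 := fun e => by
    rw [e, pow_zero] at hu
    exact hlu 1 (by rw [Units.val_one, hu]) (one_mem _)
  have hu0 : IsUnit u := by
    refine (isUnit_pow_iff hk0).1 ?_
    rw [hu]
    exact (ZMod.isUnit_iff_coprime l p).2 (hl.coprime_iff_not_dvd.2 hln)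
  exact hlu (hu0.unit ^ k) (by rw [Units.val_pow_eq_pow_val, IsUnit.unit_spec, hu]) ⟨hu0.unit, rfl⟩

/-- **Ankeny: the least quadratic nonresidue**, on GRH for the Legendre symbol. -/
theorem exists_quadratic_nonresidue : ∃ C, 0 < C ∧ ∀ p : ℕ, p.Prime → p ≠ 2 →
    (∀ [NeZero p] (χ : DirichletCharacter ℂ p), χ ≠ 1 → χ ^ 2 = 1 → GRHFor χ) →
      ∃ l : ℕ, l.Prime ∧ ¬IsSquare (l : ZMod p) ∧ (l : ℝ) ≤ C * Real.log (2 * p) ^ 2 := by
  obtain ⟨C, hC, h⟩ := exists_power_nonresidue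
  refine ⟨C, hC, fun p hp hp2 hG => ?_⟩
  have h2 : 2 ∣ p - 1 := by
    obtain ⟨k, hk⟩ := hp.odd_of_ne_two hp2
    exact ⟨k, by omega⟩
  obtain ⟨l, hl, -, hnr, hle⟩ := h p 2 hp (by rw [Nat.gcd_eq_left h2]; norm_num) hG
  exact ⟨l, hl, fun ⟨r, hr⟩ => hnr r (by rw [sq, hr]), hle⟩

/-- **Miller's test with `O (log² n)` bases.** -/
theorem exists_witness : ∃ C, 0 < C ∧ ∀ (n : ℕ) [NeZero n], GRHMod n → Odd n → 1 < n →
    ¬n.Prime → ∀ s d : ℕ, Odd d → n - 1 = 2 ^ s * d →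
      ∃ a : ℕ, 1 < a ∧ a < n ∧ (a : ℝ) ≤ C * Real.log (2 * n) ^ 2 ∧
        ¬ FA.Miller.Passes n s d (a : ZMod n) := by
  obtain ⟨C, hC, h⟩ := exists_prime_outside
  refine ⟨C, hC, fun n _ hG hn hn1 hc s d hd hsd => ?_⟩
  obtain ⟨H, hH, hHu⟩ := FA.Miller.exists_subgroup_of_composite hn hn1 hc hd hsd
  obtain ⟨l, hl, hln, hlu, hle⟩ := h n H hH fun χ _ _ => hG χ
  obtain ⟨u, hu⟩ : ∃ u : (ZMod n)ˣ, (u : ZMod n) = l :=
    ⟨ZMod.unitOfCoprime l (hl.coprime_iff_not_dvd.2 hln), rfl⟩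
  have hu1 : u ≠ 1 := fun e => hlu u hu (e ▸ one_mem H)
  refine ⟨l % n, ?_, Nat.mod_lt _ (by omega),
    (Nat.cast_le.2 (Nat.mod_le l n)).trans hle, fun hp => hlu u hu (hHu u ?_)⟩
  · rcases Nat.eq_zero_or_pos (l % n) with h0 | h0
    · exact absurd (Nat.dvd_of_mod_eq_zero h0) (fun hd' => hln (by
        rcases (Nat.dvd_prime hl).1 hd' with h1 | h1 <;> simp [h1] at hn1 ⊢))
    · by_contra hlt
      have h1 : l % n = 1 := by omega
      exact hu1 (Units.ext (by rw [hu, ← ZMod.natCast_mod, h1, Nat.cast_one, Units.val_one]))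
  · rwa [ZMod.natCast_mod, ← hu] at hp

end FA.AnkenyBound

end
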